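import Fermat.Agent.GaussCycles.Basic
import Mathlib.GroupTheory.Perm.Cycle.Basic

/-!
# Equivalent reduced forms lie in one cycle

A matrix carrying one form with `c < 0 < a` to another has, up to sign and inversion, no negative
entry; if both forms are reduced the entries decrease along the neighbours.
-/

set_option autoImplicit false

noncomputable section

namespace FA.GaussCycles

open FA.GaussComposition

variable {D : ℤ}

theorem eval_pos_mono {a b c x₁ y₁ x₂ y₂ : ℤ} (ha : 0 < a) (hc : c < 0) (hx₁ : 0 ≤ x₁)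
    (hy₁ : 0 ≤ y₁) (hy₂ : 0 ≤ y₂) (hle : x₁ * y₂ ≤ x₂ * y₁) (hne : x₂ ≠ 0 ∨ y₂ ≠ 0)
    (h : 0 < a * x₁ ^ 2 + b * x₁ * y₁ + c * y₁ ^ 2) :
    0 < a * x₂ ^ 2 + b * x₂ * y₂ + c * y₂ ^ 2 := by
  rcases eq_or_lt_of_le hy₁ with h0 | h0
  · subst h0
    have hx : 0 < x₁ := lt_of_le_of_ne hx₁ fun e => by subst e; simp at h
    have : y₂ = 0 := by nlinarith
    subst this
    simp only [mul_zero, add_zero, zero_pow two_ne_zero, ne_eq, not_true_eq_false, or_false]
      at hne ⊢
    positivity
  · have h1 : 0 < x₁ * (a * x₁ + b * y₁) := by nlinarith [mul_pos h0 h0]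
    have h2 : 0 < a * x₁ + b * y₁ := pos_of_mul_pos_right h1 hx₁
    have h3 : 0 ≤ a * (x₂ * y₁ + x₁ * y₂) + b * (y₁ * y₂) := by
      have hx2 : 0 ≤ x₂ * y₁ := le_trans (mul_nonneg hx₁ hy₂) hle
      nlinarith [mul_nonneg h2.le hy₂, mul_nonneg ha.le hx2]
    have h4 : y₂ ^ 2 * (a * x₁ ^ 2 + b * x₁ * y₁ + c * y₁ ^ 2) ≤
        y₁ ^ 2 * (a * x₂ ^ 2 + b * x₂ * y₂ + c * y₂ ^ 2) := by
      nlinarith [mul_nonneg (sub_nonneg.2 hle) h3]
    rcases eq_or_lt_of_le hy₂ with e | e
    · subst e
      simp only [mul_zero, add_zero, zero_pow two_ne_zero, ne_eq, not_true_eq_false, or_false]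
        at hne ⊢
      positivity
    · exact pos_of_mul_pos_right (lt_of_lt_of_le (mul_pos (pow_pos e 2) h) h4) (sq_nonneg _)

/-- `g` is `f` moved by the matrix. -/
def Moved (f : Form D) (A B C p q r s : ℤ) : Prop :=
  A = f.eval p r ∧ B = 2 * f.a * p * q + f.b * (p * s + q * r) + 2 * f.c * r * s ∧ C = f.eval q s

/-- The coefficients of `g` with the positive one first. -/
def river (g : Form D) : ℤ × ℤ × ℤ := if 0 < g.a then (g.a, g.b, g.c) else (g.c, -g.b, g.a)

theorem river_signs {g : Form D} (h : Reduced g) : 0 < (river g).1 ∧ (river g).2.2 < 0 := by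
  obtain ⟨hac, -⟩ := h
  unfold river
  split_ifs with ha
  · exact ⟨ha, by nlinarith⟩
  · exact ⟨pos_of_mul_neg_right hac (not_lt.1 ha),
      lt_of_le_of_ne (not_lt.1 ha) fun (e : g.a = 0) => by rw [e, zero_mul] at hac; omega⟩

variable (hns : ¬IsSquare D) (hpos : 0 < D)
include hns hpos

/-- The permutation of the reduced forms. -/
theorem exists_rho : ∃ ρ : Equiv.Perm {f : Form D // Reduced f},
    ∀ f, Neighbour f.1 (ρ f).1 ∧ f.1.Equivalent (ρ f).1 := by
  choose F hF hN hE using fun f : {f : Form D // Reduced f} => exists_neighbour hpos hns f.2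
  refine ⟨Equiv.ofBijective (fun f => ⟨F f, hF f⟩) ⟨fun f g h => ?_, fun g => ?_⟩,
    fun f => ⟨hN f, hE f⟩⟩
  · have h' : F f = F g := congrArg Subtype.val h
    have := neighbour_unique f.2.swap g.2.swap (hN f).swap (by rw [h']; exact (hN g).swap)
    exact Subtype.ext (by rw [← swap_swap f.1, this, swap_swap])
  · refine ⟨⟨swap (F ⟨swap g.1, g.2.swap⟩), (hF _).swap⟩, Subtype.ext ?_⟩
    refine neighbour_unique (hF _) g.2 (hN _) ?_
    have := (hN ⟨swap g.1, g.2.swap⟩).swap
    rwa [swap_swap] at this

variable {ρ : Equiv.Perm {f : Form D // Reduced f}} (hρ : ∀ f, Neighbour f.1 (ρ f).1)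
include hρ

omit hns in
theorem rho_flip (f : {f : Form D // Reduced f}) :
    ρ ⟨flip hpos f.1, f.2.flip hpos⟩ = ⟨flip hpos (ρ f).1, (ρ f).2.flip hpos⟩ :=
  Subtype.ext (neighbour_unique (ρ _).2 ((ρ f).2.flip hpos) (hρ _) ((hρ f).flip hpos))

omit hns in
theorem sameCycle_flip {f g : {f : Form D // Reduced f}} (h : ρ.SameCycle f g) :
    ρ.SameCycle ⟨flip hpos f.1, f.2.flip hpos⟩ ⟨flip hpos g.1, g.2.flip hpos⟩ := by
  have : Finite {f : Form D // Reduced f} := finite_reduced.to_subtype
  obtain ⟨n, rfl⟩ := h.exists_nat_pow_eq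
  clear h
  induction n with
  | zero => exact Equiv.Perm.SameCycle.refl ρ _
  | succ n ih =>
    have e := rho_flip hpos hρ ((ρ ^ n) f)
    rw [pow_succ']
    exact ih.trans (by
      show ρ.SameCycle _ ⟨flip hpos (ρ ((ρ ^ n) f)).1, _⟩
      rw [← e]
      exact Equiv.Perm.sameCycle_apply_right.2 (Equiv.Perm.SameCycle.refl ρ _))

/-- A matrix without negative entries between reduced forms follows the neighbours. -/
theorem sameCycle_of_nonneg : ∀ (n : ℕ) (f g : {f : Form D // Reduced f}) (p q r s : ℤ),
    0 < f.1.a → 0 ≤ p → 0 ≤ q → 0 ≤ r → 0 ≤ s → p * s - q * r = 1 → p + q + r + s ≤ n →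
    Moved f.1 (river g.1).1 (river g.1).2.1 (river g.1).2.2 p q r s → ρ.SameCycle f g := by
  intro n
  induction n with
  | zero =>
    intro f g p q r s _ hp hq hr hs hdet hle _
    have : p = 0 := by omega
    have : q = 0 := by omega
    simp_all
  | succ n ih =>
    intro f g p q r s ha hp hq hr hs hdet hle ⟨hA, hB, hC⟩
    obtain ⟨hfac, hfb⟩ := f.2
    obtain ⟨hfb1, hfb2⟩ := abs_lt.1 hfb
    have hfc : f.1.c < 0 := by nlinarith
    obtain ⟨hA0, hC0⟩ := river_signs g.2
    obtain ⟨k, h, hk1, hpi, hni, hh, hn, -, hha, hhb, hhc⟩ :=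
      exists_step hns ha hfc (show 0 < f.1.a + f.1.b + f.1.c by linarith)
    have hρh : (ρ f).1 = h := neighbour_unique (ρ f).2 hh (hρ f) hn
    simp only [Form.eval] at hA hC
    rcases eq_or_lt_of_le hq with hq0 | hq0
    · subst hq0
      have hps : p * s = 1 := by linarith
      obtain rfl : p = 1 := Int.eq_one_of_mul_eq_one_right hp hps
      obtain rfl : s = 1 := by linarith
      by_cases hrk : r < k
      · obtain ⟨i, rfl⟩ : ∃ i : ℕ, r = i := ⟨r.toNat, (Int.toNat_of_nonneg hr).symm⟩
        obtain ⟨hgac, hgb⟩ := g.2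
        obtain ⟨hgb1, hgb2⟩ := abs_lt.1 hgb
        have h1 := hpi (i + 1) (by omega)
        simp only [Form.eval, Nat.cast_add, Nat.cast_one] at h1
        unfold river at hA hB hC
        split_ifs at hA hB hC with hga
        · obtain rfl : i = 0 := by
            by_contra hi0
            have h2 := hpi (i - 1) (by omega)
            rw [Nat.cast_sub (by omega), Nat.cast_one] at h2
            simp only [Form.eval] at h2
            linarith
          rw [show g = f from Subtype.ext (Form.ext (by simpa using hA)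
            (by simpa using hB) (by simpa using hC))]
        · exfalso
          linarith
      · have hrk' : (k : ℤ) ≤ r := not_lt.1 hrk
        refine (Equiv.Perm.sameCycle_apply_left.1 ?_)
        have key := ih ⟨flip hpos h, hh.flip hpos⟩ ⟨flip hpos g.1, g.2.flip hpos⟩ 1 (r - k) 0 1
          (by show 0 < -h.a; rw [hha]; linarith) zero_le_one (by linarith) le_rfl zero_le_one
          (by ring) (by omega) ?_
        · have e : ρ f = ⟨h, hh⟩ := Subtype.ext hρh
          rw [e]
          have := sameCycle_flip hpos hρ key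
          simpa only [flip_flip] using this
        · have := river_flip hns hpos g.2
          rw [this]
          refine ⟨?_, ?_, ?_⟩ <;>
            simp only [flip, Form.eval, hha, hhb, hhc, hA, hB, hC] <;> ring
    · have hsk : k * q ≤ s := by
        by_contra hlt
        have := eval_pos_mono (b := f.1.b) ha hfc zero_le_one (Int.natCast_nonneg k) hs
          (show 1 * s ≤ q * k by linarith) (Or.inl hq0.ne')
          (by simpa [Form.eval] using hpi k le_rfl)
        linarith
      have hrk : k * p ≤ r := by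
        by_contra hlt
        have hlt' : r + 1 ≤ k * p := by omega
        have h1 : q * (r + 1) ≤ q * (k * p) := mul_le_mul_of_nonneg_left hlt' hq
        have h2 : p * (k * q) ≤ p * s := mul_le_mul_of_nonneg_left hsk hp
        obtain rfl : q = 1 := by nlinarith
        have : s = k := by
          have hp0 : 0 < p := by
            by_contra hp0
            have hpe : p = 0 := by omega
            rw [hpe, mul_zero] at hlt'
            omega
          nlinarith
        subst this
        have := hpi k le_rfl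
        simp only [Form.eval] at this
        linarith
      refine (Equiv.Perm.sameCycle_apply_left.1 ?_)
      have hk0 : (1 : ℤ) ≤ k := by exact_mod_cast hk1
      have h1 : p ≤ k * p := le_mul_of_one_le_left hp hk0
      have h2 : q ≤ k * q := le_mul_of_one_le_left hq hk0
      have key := ih ⟨flip hpos h, hh.flip hpos⟩ ⟨flip hpos g.1, g.2.flip hpos⟩
        (s - k * q) (r - k * p) q p
        (by show 0 < -h.a; rw [hha]; linarith) (by linarith) (by linarith) hq hp
        (by linear_combination hdet) (by omega) ?_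
      · have e : ρ f = ⟨h, hh⟩ := Subtype.ext hρh
        rw [e]
        have := sameCycle_flip hpos hρ key
        simpa only [flip_flip] using this
      · have := river_flip hns hpos g.2
        rw [this]
        refine ⟨?_, ?_, ?_⟩ <;>
          simp only [flip, Form.eval, hha, hhb, hhc, hA, hB, hC] <;> ring
where
  river_flip (hns : ¬IsSquare D) (hpos : 0 < D) {g : Form D} (h : Reduced g) :
      river (flip hpos g) = (-(river g).2.2, -(river g).2.1, -(river g).1) := by
    unfold river
    rcases lt_or_gt_of_ne (g.a_ne_zero hns) with ha | ha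
    · rw [if_pos (by show 0 < -g.a; linarith), if_neg (by linarith)]
      simp [flip]
    · rw [if_neg (by show ¬0 < -g.a; linarith), if_pos ha]
      simp [flip]

/-- **Equivalent reduced forms lie in one cycle.** -/
theorem sameCycle_of_equivalent {f g : {f : Form D // Reduced f}} (h : f.1.Equivalent g.1)
    (hf : 0 < f.1.a) (hg : 0 < g.1.a) : ρ.SameCycle f g := by
  obtain ⟨p, q, r, s, hdet, hA, hB, hC, hs⟩ : ∃ p q r s : ℤ, p * s - q * r = 1 ∧
      g.1.a = f.1.eval p r ∧
      g.1.b = 2 * f.1.a * p * q + f.1.b * (p * s + q * r) + 2 * f.1.c * r * s ∧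
      g.1.c = f.1.eval q s ∧ 0 ≤ s := by
    obtain ⟨p, q, r, s, hdet, hA, hB, hC⟩ := h
    rcases le_total 0 s with hs | hs
    · exact ⟨p, q, r, s, hdet, hA, hB, hC, hs⟩
    · refine ⟨-p, -q, -r, -s, by linear_combination hdet, ?_, ?_, ?_, by linarith⟩ <;>
        simp only [Form.eval] at * <;> first
          | linear_combination hA
          | linear_combination hB
          | linear_combination hC
  have hfc : f.1.c < 0 := by nlinarith [f.2.1]
  have hgc : g.1.c < 0 := by nlinarith [g.2.1]
  have hA' : 0 < f.1.a * p ^ 2 + f.1.b * p * r + f.1.c * r ^ 2 := by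
    have := hA ▸ hg; simpa [Form.eval] using this
  have hC' : f.1.a * q ^ 2 + f.1.b * q * s + f.1.c * s ^ 2 < 0 := by
    have := hC ▸ hgc; simpa [Form.eval] using this
  have hfr : river f.1 = (f.1.a, f.1.b, f.1.c) := if_pos hf
  have hgr : river g.1 = (g.1.a, g.1.b, g.1.c) := if_pos hg
  have forward : 0 ≤ p → 0 ≤ q → 0 ≤ r → ρ.SameCycle f g := fun hp hq hr =>
    sameCycle_of_nonneg hns hpos hρ (p + q + r + s).toNat f g p q r s hf hp hq hr hs hdet
      (Int.self_le_toNat _) (by rw [hgr]; exact ⟨hA, hB, hC⟩)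
  have backward : 0 ≤ p → q ≤ 0 → r ≤ 0 → ρ.SameCycle f g := fun hp hq hr => by
    refine (sameCycle_of_nonneg hns hpos hρ (s + -q + -r + p).toNat g f s (-q) (-r) p hg hs
      (by linarith) (by linarith) hp (by linear_combination hdet) (Int.self_le_toNat _) ?_).symm
    rw [hfr]
    refine ⟨?_, ?_, ?_⟩ <;> simp only [Form.eval, hA, hB, hC]
    · linear_combination -f.1.a * (p * s - q * r + 1) * hdet
    · linear_combination -f.1.b * (p * s - q * r + 1) * hdet
    · linear_combination -f.1.c * (p * s - q * r + 1) * hdet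
  have hs0 : 0 < s := lt_of_le_of_ne hs fun e => by
    subst e
    nlinarith [mul_nonneg hf.le (sq_nonneg q)]
  have hqs : q ≠ 0 ∨ s ≠ 0 := by
    by_contra h0
    push Not at h0
    simp [h0.1, h0.2] at hdet
  rcases lt_trichotomy r 0 with hr | rfl | hr
  · by_cases hp : 0 < p
    · exact backward hp.le (by nlinarith [mul_pos hp hs0]) hr.le
    · exfalso
      have := eval_pos_mono (b := f.1.b) (x₁ := -p) (y₁ := -r) (x₂ := q) (y₂ := s) hf hfc
        (by linarith) (by linarith) hs (by linarith [mul_comm p s]) hqs (by linarith)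
      linarith
  · have hps : p * s = 1 := by linarith
    have hp : 0 ≤ p := by
      by_contra hp
      nlinarith
    rcases le_total 0 q with hq | hq
    exacts [forward hp hq le_rfl, backward hp hq le_rfl]
  · by_cases hp : 0 < p
    · exact forward hp.le (by nlinarith [mul_pos hp hs0]) hr.le
    · exfalso
      have := eval_pos_mono (b := -f.1.b) (x₁ := -p) (y₁ := r) (x₂ := -q) (y₂ := s) hf hfc
        (by linarith) hr.le hs (by linarith) (hqs.imp neg_ne_zero.2 id) (by linarith)
      linarith

/-- **The cycles are the classes.** -/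
theorem cl_eq_iff_sameCycle (hE : ∀ f : {f : Form D // Reduced f}, f.1.Equivalent (ρ f).1)
    {f g : {f : Form D // Reduced f}} : f.1.cl = g.1.cl ↔ ρ.SameCycle f g := by
  have hcl : ∀ f, f.1.cl = (ρ f).1.cl := fun f => Quot.sound (hE f)
  have hposa : ∀ f : {f : Form D // Reduced f}, ∃ g, ρ.SameCycle f g ∧ f.1.cl = g.1.cl ∧
      0 < g.1.a := fun f => by
    rcases lt_or_gt_of_ne (f.1.a_ne_zero hns) with ha | ha
    · exact ⟨ρ f, Equiv.Perm.sameCycle_apply_right.2 (Equiv.Perm.SameCycle.refl ρ _), hcl f, by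
        rw [(hρ f).1]; exact pos_of_mul_neg_right f.2.1 ha.le⟩
    · exact ⟨f, Equiv.Perm.SameCycle.refl ρ _, rfl, ha⟩
  constructor
  · intro h
    obtain ⟨f', hff, hf, hfa⟩ := hposa f
    obtain ⟨g', hgg, hg, hga⟩ := hposa g
    exact hff.trans ((sameCycle_of_equivalent hns hpos hρ
      ((cl_eq_iff hns).1 (hf.symm.trans (h.trans hg))) hfa hga).trans hgg.symm)
  · intro h
    have : Finite {f : Form D // Reduced f} := finite_reduced.to_subtype
    obtain ⟨n, rfl⟩ := h.exists_nat_pow_eq
    clear h
    induction n with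
    | zero => rfl
    | succ n ih =>
      rw [pow_succ']
      exact ih.trans (hcl ((ρ ^ n) f))

/-- **The class number counts the cycles.** -/
theorem card_cycles (hE : ∀ f : {f : Form D // Reduced f}, f.1.Equivalent (ρ f).1) :
    Nat.card (FormClass D) = Nat.card (Quotient (Equiv.Perm.SameCycle.setoid ρ)) := by
  refine (Nat.card_eq_of_bijective
    (Quotient.lift (fun f => f.1.cl) fun f g h => (cl_eq_iff_sameCycle hns hpos hρ hE).2 h)
    ⟨fun x y => ?_, fun x => ?_⟩).symm
  · induction x using Quotient.inductionOn with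
    | h f =>
      induction y using Quotient.inductionOn with
      | h g => exact fun h => Quotient.sound ((cl_eq_iff_sameCycle hns hpos hρ hE).1 h)
  · obtain ⟨f, rfl⟩ := Quot.exists_rep x
    obtain ⟨g, hg, e⟩ := exists_reduced_form hpos hns f
    exact ⟨Quotient.mk _ ⟨g, hg⟩, e.symm⟩

omit hns hpos hρ in
/-- **The automorphs.** -/
theorem automorph_iff {D : ℤ} (hns : ¬IsSquare D) (f : Form D) (p q r s : ℤ) :
    (p * s - q * r = 1 ∧ Moved f f.a f.b f.c p q r s) ↔
      ∃ t u : ℤ, t ^ 2 - D * u ^ 2 = 4 ∧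
        2 * p = t - f.b * u ∧ q = -f.c * u ∧ r = f.a * u ∧ 2 * s = t + f.b * u := by
  have ha := f.a_ne_zero hns
  constructor
  · rintro ⟨hdet, hA, hB, -⟩
    simp only [Form.eval] at hA
    have hz : f.a * p * q + f.b * q * r + f.c * r * s = 0 :=
      mul_left_cancel₀ (two_ne_zero (α := ℤ)) (by linear_combination -hB - f.b * hdet)
    have e1 : f.a * q + f.c * r = 0 := by
      linear_combination q * hA + p * hz - (f.c * r) * hdet
    have e2 : f.a * (s - p) = f.b * r := by
      linear_combination s * hA + r * hz + (f.a * p + f.b * r) * hdet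
    obtain ⟨x, y, z, hxyz⟩ := f.exists_bezout
    refine ⟨p + s, x * r - y * q + z * (s - p), ?_⟩
    set u := x * r - y * q + z * (s - p) with hu
    have hr : r = f.a * u := by
      rw [hu]
      linear_combination y * e1 - z * e2 - r * hxyz
    have hq : q = -f.c * u := mul_left_cancel₀ ha (by linear_combination e1 - f.c * hr)
    have hsp : s - p = f.b * u := mul_left_cancel₀ ha (by linear_combination e2 + f.b * hr)
    refine ⟨?_, by linarith, hq, hr, by linarith⟩
    linear_combination 4 * hdet + u ^ 2 * f.disc + (s - p + f.b * u) * hsp + 4 * r * hq -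
      4 * f.c * u * hr
  · rintro ⟨t, u, htu, hp, rfl, rfl, hs⟩
    obtain rfl : s = p + f.b * u := by linarith
    obtain rfl : t = 2 * p + f.b * u := by linarith
    have hdet : p * (p + f.b * u) - -f.c * u * (f.a * u) = 1 :=
      mul_left_cancel₀ (four_ne_zero (α := ℤ)) (by linear_combination htu - u ^ 2 * f.disc)
    refine ⟨hdet, ?_, ?_, ?_⟩ <;> (try simp only [Form.eval])
    · linear_combination -f.a * hdet
    · linear_combination -f.b * hdet
    · linear_combination -f.c * hdet

end FA.GaussCycles
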