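import Fermat.Agent.GaussDuplication.Main

/-!
# Reduced indefinite forms and neighbours

`f` is reduced when `a c < 0` and `|a + c| < b`; it then has exactly one reduced neighbour
`(c, b', c')`, `b' ≡ -b (mod 2 c)`, and passing to it permutes the finitely many reduced forms.
-/

set_option autoImplicit false

noncomputable section

namespace FA.GaussCycles

open FA.GaussComposition

variable {D : ℤ}

/-- A reduced indefinite form. -/
def Reduced (f : Form D) : Prop := f.a * f.c < 0 ∧ |f.a + f.c| < f.b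

/-- Gauss's neighbour on the right. -/
def Neighbour (f g : Form D) : Prop := g.a = f.c ∧ 2 * f.c ∣ f.b + g.b

theorem Reduced.disc_pos {f : Form D} (h : Reduced f) : 0 < D := by
  nlinarith [f.disc, h.1, sq_nonneg f.b]

theorem reduced_unique {f g : Form D} (hf : Reduced f) (hg : Reduced g) (ha : f.a = g.a)
    (hb : 2 * f.a ∣ g.b - f.b) : f = g := by
  have key : ∀ f g : Form D, Reduced f → Reduced g → f.a = g.a → ∀ t : ℤ,
      g.b - f.b = 2 * |f.a| * t → t ≤ 0 := by
    intro f g hf hg ha t ht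
    by_contra hpos
    obtain ⟨hac, hb⟩ := hf
    have ha0 : 0 < |f.a| := abs_pos.2 fun e => by simp [e] at hac
    have h1 : f.b + 2 * |f.a| ≤ g.b := by nlinarith
    have h2 : |f.c| < f.b + |f.a| := by
      rcases lt_or_gt_of_ne (show f.a ≠ 0 from fun e => by simp [e] at hac) with h | h
      · have hc : 0 < f.c := pos_of_mul_neg_right hac h.le
        rw [abs_of_pos hc, abs_of_neg h]
        linarith [(abs_lt.1 hb).1, (abs_lt.1 hb).2]
      · have hc : f.c < 0 := by nlinarith
        rw [abs_of_neg hc, abs_of_pos h]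
        linarith [(abs_lt.1 hb).1, (abs_lt.1 hb).2]
    have h3 : f.a * f.c = -(|f.a| * |f.c|) := by rw [← abs_mul, abs_of_neg hac, neg_neg]
    have h4 : (f.b + 2 * |f.a|) ^ 2 ≤ g.b ^ 2 :=
      pow_le_pow_left₀ (by linarith [abs_nonneg (f.a + f.c)]) h1 2
    nlinarith [f.disc, g.disc, hg.1, mul_lt_mul_of_pos_left h2 ha0]
  obtain ⟨t, ht⟩ := hb
  obtain ⟨s, hs⟩ : ∃ s, g.b - f.b = 2 * |f.a| * s := by
    rcases abs_choice f.a with e | e <;> rw [e]
    exacts [⟨t, ht⟩, ⟨-t, by rw [ht]; ring⟩]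
  have h1 := key f g hf hg ha s hs
  have h2 := key g f hg hf ha.symm (-s) (by rw [← ha]; linear_combination -hs)
  obtain rfl : s = 0 := by omega
  refine Form.ext ha (by linarith) (mul_left_cancel₀ (show 4 * f.a ≠ 0 from
    mul_ne_zero four_ne_zero fun e => by simpa [e] using hf.1) ?_)
  have e1 := g.disc
  rw [← ha, show g.b = f.b by linarith] at e1
  linear_combination e1 - f.disc

/-- The form read backwards. -/
def swap (f : Form D) : Form D :=
  ⟨f.c, f.b, f.a, by linear_combination f.disc, fun l hl h1 h2 h3 => f.prim l hl h3 h2 h1,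
    fun h => by
      have := f.pos h
      nlinarith [f.disc, sq_nonneg f.b]⟩

theorem swap_swap (f : Form D) : swap (swap f) = f := rfl

theorem Reduced.swap {f : Form D} (h : Reduced f) : Reduced (swap f) :=
  ⟨by rw [show (GaussCycles.swap f).a * (GaussCycles.swap f).c = f.c * f.a from rfl, mul_comm]
      exact h.1,
    by show |f.c + f.a| < f.b; rw [add_comm]; exact h.2⟩

theorem Neighbour.swap {f g : Form D} (h : Neighbour f g) :
    Neighbour (GaussCycles.swap g) (GaussCycles.swap f) :=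
  ⟨h.1.symm, by show 2 * g.a ∣ g.b + f.b; rw [h.1, add_comm]; exact h.2⟩

theorem neighbour_unique {f g g' : Form D} (hg : Reduced g) (hg' : Reduced g') (h : Neighbour f g)
    (h' : Neighbour f g') : g = g' := by
  refine reduced_unique hg hg' (h.1.trans h'.1.symm) ?_
  rw [h.1, show g'.b - g.b = f.b + g'.b - (f.b + g.b) by ring]
  exact h'.2.sub h.2

/-- The map `f (x, y) ↦ -f (x, -y)`. -/
def flip (h : 0 < D) (f : Form D) : Form D :=
  ⟨-f.a, f.b, -f.c, by linear_combination f.disc,
    fun l hl h1 h2 h3 => f.prim l hl (dvd_neg.1 h1) h2 (dvd_neg.1 h3), fun h' => by omega⟩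

variable (hpos : 0 < D)

theorem flip_flip (f : Form D) : flip hpos (flip hpos f) = f := by
  ext <;> simp [flip]

theorem Reduced.flip {f : Form D} (h : Reduced f) : Reduced (flip hpos f) :=
  ⟨by show -f.a * -f.c < 0; rw [neg_mul_neg]; exact h.1,
    by show |-f.a + -f.c| < f.b; rw [← neg_add, abs_neg]; exact h.2⟩

theorem Neighbour.flip {f g : Form D} (h : Neighbour f g) :
    Neighbour (GaussCycles.flip hpos f) (GaussCycles.flip hpos g) :=
  ⟨by show -g.a = -f.c; rw [h.1], by
    show 2 * -f.c ∣ f.b + g.b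
    rw [mul_neg, neg_dvd]
    exact h.2⟩

theorem Equivalent_flip {f g : Form D} (h : f.Equivalent g) :
    (GaussCycles.flip hpos f).Equivalent (GaussCycles.flip hpos g) := by
  obtain ⟨p, q, r, s, hd, ha, hb, hc⟩ := h
  refine ⟨p, -q, -r, s, by linear_combination hd, ?_, ?_, ?_⟩
  · simp only [GaussCycles.flip, Form.eval] at ha ⊢
    linear_combination -ha
  · simp only [GaussCycles.flip]
    linear_combination hb
  · simp only [GaussCycles.flip, Form.eval] at hc ⊢
    linear_combination -hc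

include hpos

omit hpos in
/-- The step from a form with `c < 0 < a`, `0 < a + b + c`. -/
theorem exists_step {f : Form D} (hns : ¬IsSquare D) (ha : 0 < f.a) (hc : f.c < 0)
    (hs : 0 < f.a + f.b + f.c) :
    ∃ (k : ℕ) (g : Form D), 1 ≤ k ∧ (∀ i : ℕ, i ≤ k → 0 < f.eval 1 i) ∧
      f.eval 1 ((k : ℤ) + 1) < 0 ∧ Reduced g ∧ Neighbour f g ∧ f.Equivalent g ∧
      g.a = f.c ∧ g.b = -f.b - 2 * k * f.c ∧ g.c = f.eval 1 k := by
  classical
  have hne : ∀ i : ℤ, f.eval 1 i ≠ 0 := fun i => f.eval_ne_zero hns isCoprime_one_left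
  have hex : ∃ i : ℕ, f.eval 1 ((i : ℤ) + 1) < 0 := by
    refine ⟨(|f.b| + f.a).toNat, ?_⟩
    have h0 := abs_nonneg f.b
    rw [Int.toNat_of_nonneg (by linarith), Form.eval]
    nlinarith [le_abs_self f.b]
  obtain ⟨k, hk, hmin⟩ : ∃ k : ℕ, f.eval 1 ((k : ℤ) + 1) < 0 ∧
      ∀ i < k, ¬f.eval 1 ((i : ℤ) + 1) < 0 :=
    ⟨Nat.find hex, Nat.find_spec hex, fun _ => Nat.find_min hex⟩
  have hle : ∀ i : ℕ, i ≤ k → 0 < f.eval 1 i := fun i hi => by
    rcases i with _ | i
    · simpa [Form.eval] using ha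
    · push_cast
      exact lt_of_le_of_ne (not_lt.1 (hmin i hi)) (hne _).symm
  have hk1 : 1 ≤ k := by
    by_contra h0
    rw [show k = 0 by omega] at hk
    simp only [Form.eval, Nat.cast_zero] at hk
    linarith
  obtain ⟨g, hg, hga, hgb⟩ :=
    f.exists_transform hns (p := 0) (q := -1) (r := 1) (s := -(k : ℤ)) (by ring)
  have ea : g.a = f.c := by rw [hga, Form.eval]; ring
  have eb : g.b = -f.b - 2 * k * f.c := by rw [hgb]; ring
  have ec : g.c = f.eval 1 k := by
    refine mul_left_cancel₀ (show 4 * f.c ≠ 0 from mul_ne_zero four_ne_zero hc.ne) ?_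
    have e := g.disc
    rw [ea, eb] at e
    simp only [Form.eval]
    linear_combination f.disc - e
  refine ⟨k, g, hk1, hle, hk, ⟨?_, ?_⟩, ⟨ea, ?_⟩, hg, ea, eb, ec⟩
  · rw [ea, ec]
    exact mul_neg_of_neg_of_pos hc (hle k le_rfl)
  · rw [ea, eb, ec, abs_lt]
    have h1 := hle (k - 1) (Nat.sub_le k 1)
    rw [Nat.cast_sub hk1, Nat.cast_one] at h1
    simp only [Form.eval] at h1 hk ⊢
    constructor <;> linarith
  · rw [eb]
    exact ⟨-k, by ring⟩

/-- **The reduced neighbour.** -/
theorem exists_neighbour (hns : ¬IsSquare D) {f : Form D} (hf : Reduced f) :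
    ∃ g : Form D, Reduced g ∧ Neighbour f g ∧ f.Equivalent g := by
  obtain ⟨hac, hb⟩ := hf
  obtain ⟨hb1, hb2⟩ := abs_lt.1 hb
  rcases lt_or_gt_of_ne (show f.a ≠ 0 from fun e => by simp [e] at hac) with ha | ha
  · obtain ⟨k, g, -, -, -, hg, hn, he, -⟩ := exists_step (f := flip hpos f) hns
      (by show 0 < -f.a; linarith)
      (by show -f.c < 0; nlinarith)
      (by show 0 < -f.a + f.b + -f.c; linarith)
    refine ⟨flip hpos g, hg.flip hpos, ?_, ?_⟩
    · have := hn.flip hpos
      rwa [flip_flip] at this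
    · have := Equivalent_flip hpos he
      rwa [flip_flip] at this
  · obtain ⟨k, g, -, -, -, hg, hn, he, -⟩ := exists_step hns ha (by nlinarith)
      (show 0 < f.a + f.b + f.c by linarith)
    exact ⟨g, hg, hn, he⟩

/-- **Every class has a reduced form.** -/
theorem exists_reduced_form (hns : ¬IsSquare D) (f : Form D) :
    ∃ g : Form D, Reduced g ∧ f.cl = g.cl := by
  obtain ⟨f₁, hf₁, hb, hac⟩ := exists_reduced hns _ f rfl
  have hneg : f₁.a * f₁.c < 0 := by
    by_contra h
    push Not at h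
    have h2 : f₁.b ^ 2 ≤ |f₁.a| * |f₁.c| := by
      rw [← sq_abs, pow_two]
      exact mul_le_mul hb (hb.trans hac) (abs_nonneg _) (abs_nonneg _)
    rw [← abs_mul, abs_of_nonneg h] at h2
    nlinarith [f₁.disc]
  obtain ⟨f₂, hf₂, ha, hc⟩ : ∃ f₂ : Form D, f₁.cl = f₂.cl ∧ 0 < f₂.a ∧ f₂.c < 0 := by
    rcases lt_or_gt_of_ne (f₁.a_ne_zero hns) with ha | ha
    · obtain ⟨k, hk, hka, hkb⟩ :=
        f₁.exists_transform hns (p := 0) (q := -1) (r := 1) (s := 0) (by norm_num)
      have hka' : k.a = f₁.c := by rw [hka, Form.eval]; ring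
      have hc1 : 0 < f₁.c := pos_of_mul_neg_right hneg ha.le
      refine ⟨k, Quot.sound hk, by rwa [hka'], ?_⟩
      have e := k.disc
      rw [hka', show k.b = -f₁.b by rw [hkb]; ring] at e
      nlinarith [f₁.disc]
    · exact ⟨f₁, rfl, ha, by nlinarith⟩
  rcases lt_trichotomy 0 (f₂.a + f₂.b + f₂.c) with hs | hs | hs
  · obtain ⟨k, g, -, -, -, hg, -, he, -⟩ := exists_step hns ha hc hs
    exact ⟨g, hg, (hf₁.symm.trans hf₂).trans (Quot.sound he)⟩
  · exact absurd hs.symm (by
      simpa [Form.eval] using f₂.eval_ne_zero hns (isCoprime_one_left (x := (1 : ℤ))))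
  · obtain ⟨k, hk, hka, hkb⟩ :=
      f₂.exists_transform hns (p := 0) (q := -1) (r := 1) (s := 0) (by norm_num)
    have hka' : k.a = f₂.c := by rw [hka, Form.eval]; ring
    have hkb' : k.b = -f₂.b := by rw [hkb]; ring
    have hkc : k.c = f₂.a := by
      refine mul_left_cancel₀ (show 4 * f₂.c ≠ 0 from mul_ne_zero four_ne_zero hc.ne) ?_
      have e := k.disc
      rw [hka', hkb'] at e
      linear_combination f₂.disc - e
    obtain ⟨i, g, -, -, -, hg, -, he, -⟩ := exists_step (f := flip hpos k) hns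
      (by show 0 < -k.a; rw [hka']; linarith) (by show -k.c < 0; rw [hkc]; linarith)
      (by show 0 < -k.a + k.b + -k.c; rw [hka', hkb', hkc]; linarith)
    refine ⟨flip hpos g, hg.flip hpos, ((hf₁.symm.trans hf₂).trans (Quot.sound hk)).trans ?_⟩
    have := Equivalent_flip hpos he
    rw [flip_flip] at this
    exact Quot.sound this

omit hpos in
/-- There are finitely many reduced forms. -/
theorem finite_reduced : {f : Form D | Reduced f}.Finite := by
  refine Set.Finite.of_finite_image (f := fun f : Form D => (f.a, f.b, f.c)) ?_ fun f _ g _ h => by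
    simp only [Prod.mk.injEq] at h
    exact Form.ext h.1 h.2.1 h.2.2
  refine ((Set.finite_Icc (-D) D).prod ((Set.finite_Icc (-D) D).prod
    (Set.finite_Icc (-D) D))).subset ?_
  rintro _ ⟨f, ⟨hac, hb⟩, rfl⟩
  have h1 : |f.a| * |f.c| * 4 + f.b ^ 2 = D := by
    rw [← abs_mul, abs_of_neg hac]
    linear_combination f.disc
  have ha : 1 ≤ |f.a| := Int.one_le_abs fun e => by simp [e] at hac
  have hc : 1 ≤ |f.c| := Int.one_le_abs fun e => by simp [e] at hac
  have := abs_nonneg (f.a + f.c)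
  refine ⟨abs_le.1 ?_, abs_le.1 ?_, abs_le.1 ?_⟩
  · nlinarith
  · rw [abs_of_nonneg (by linarith)]
    nlinarith
  · nlinarith

end FA.GaussCycles
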